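import Mathlib

/-!
# S14 / Red734: Dedekind-domain lemmas (multiplicities at a prime vs. a valuation subring above)
-/

set_option autoImplicit false
set_option linter.unusedSectionVars false

open UniqueFactorizationMonoid

namespace Fermat.Agent.S14.Red734

section Dedekind

variable {R : Type*} [CommRing R] [IsDedekindDomain R]

/-- If `a ∈ 𝔮 ^ k` and `b ∉ 𝔮 ^ k` then `s * a = w * b` with `s ∉ 𝔮`, `w ∈ 𝔮`. -/
theorem exists_mul_eq_mul_of_mem_pow (𝔮 : Ideal R) [h𝔮 : 𝔮.IsMaximal] {a b : R} {k : ℕ}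
    (ha : a ∈ 𝔮 ^ k) (hb : b ∉ 𝔮 ^ k) :
    ∃ s w : R, s ∉ 𝔮 ∧ w ∈ 𝔮 ∧ s * a = w * b := by
  have hb0 : Ideal.span {b} ≠ ⊥ := by
    intro h
    rw [Ideal.span_singleton_eq_bot] at h
    exact hb (h ▸ Ideal.zero_mem _)
  obtain ⟨Q, hQ1, hQ2⟩ := Ideal.eq_prime_pow_mul_coprime hb0 𝔮
  set m := Multiset.count 𝔮 (normalizedFactors (Ideal.span {b})) with hm
  -- `m < k`
  have hmk : m < k := by
    by_contra hcon
    push Not at hcon
    apply hb
    have h1 : b ∈ Ideal.span {b} := Ideal.mem_span_singleton_self b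
    rw [hQ2] at h1
    have h2 : b ∈ 𝔮 ^ m := (Ideal.mul_le_left : 𝔮 ^ m * Q ≤ 𝔮 ^ m) h1
    have h3 : 𝔮 ^ m ≤ 𝔮 ^ k := Ideal.pow_le_pow_right hcon
    exact h3 h2
  -- some element of `Q` outside `𝔮`
  have hQ : ¬ Q ≤ 𝔮 := by
    intro hle
    have : 𝔮 ⊔ Q = 𝔮 := sup_eq_left.mpr hle
    rw [this] at hQ1
    exact h𝔮.ne_top hQ1
  obtain ⟨s, hsQ, hs𝔮⟩ := Set.not_subset.mp hQ
  -- `s * a ∈ 𝔮 * span {b}`
  have hsa : s * a ∈ 𝔮 * Ideal.span {b} := by
    have h1 : a * s ∈ 𝔮 ^ k * Q := Ideal.mul_mem_mul ha hsQ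
    have h2 : 𝔮 ^ k * Q ≤ 𝔮 * Ideal.span {b} := by
      rw [hQ2, ← mul_assoc, ← pow_succ']
      exact Ideal.mul_mono_left (Ideal.pow_le_pow_right hmk)
    rw [mul_comm s a]
    exact h2 h1
  rw [Ideal.mem_mul_span_singleton] at hsa
  obtain ⟨w, hw, hwb⟩ := hsa
  exact ⟨s, w, hs𝔮, hw, hwb.symm⟩

/-- `J ≤ 𝔮 ^ k` iff `k` is at most the multiplicity of `𝔮` in `J`. -/
theorem le_pow_iff_le_count (𝔮 : Ideal R) [h𝔮 : 𝔮.IsPrime] (h0 : 𝔮 ≠ ⊥) {J : Ideal R}
    (hJ : J ≠ ⊥) (k : ℕ) : J ≤ 𝔮 ^ k ↔ k ≤ Multiset.count 𝔮 (normalizedFactors J) := by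
  have hirr : Irreducible 𝔮 := (Ideal.prime_of_isPrime h0 h𝔮).irreducible
  have h1 := emultiplicity_eq_count_normalizedFactors hirr hJ
  rw [normalize_eq] at h1
  rw [← Ideal.dvd_iff_le, pow_dvd_iff_le_emultiplicity, h1]
  exact_mod_cast Iff.rfl

/-- Multiplicity of the prime `𝔮` in the principal ideal `(x)`. -/
noncomputable def cnt (𝔮 : Ideal R) (x : R) : ℕ :=
  Multiset.count 𝔮 (normalizedFactors (Ideal.span {x}))

theorem mem_pow_iff_le_cnt (𝔮 : Ideal R) [h𝔮 : 𝔮.IsPrime] (h0 : 𝔮 ≠ ⊥) {x : R} (hx : x ≠ 0)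
    (k : ℕ) : x ∈ 𝔮 ^ k ↔ k ≤ cnt 𝔮 x := by
  rw [cnt, ← le_pow_iff_le_count 𝔮 h0 (by simpa using hx), Ideal.span_singleton_le_iff_mem]

theorem cnt_mul (𝔮 : Ideal R) {x y : R} (hx : x ≠ 0) (hy : y ≠ 0) :
    cnt 𝔮 (x * y) = cnt 𝔮 x + cnt 𝔮 y := by
  rw [cnt, cnt, cnt, ← Ideal.span_singleton_mul_span_singleton,
    normalizedFactors_mul (by simpa using hx) (by simpa using hy), Multiset.count_add]

theorem cnt_pow (𝔮 : Ideal R) {x : R} (n : ℕ) :
    cnt 𝔮 (x ^ n) = n * cnt 𝔮 x := by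
  rw [cnt, cnt, ← Ideal.span_singleton_pow, normalizedFactors_pow, Multiset.count_nsmul]

theorem cnt_eq_of_forall_mem_iff (𝔮 : Ideal R) [h𝔮 : 𝔮.IsPrime] (h0 : 𝔮 ≠ ⊥) {x y : R}
    (hx : x ≠ 0) (hy : y ≠ 0) (h : ∀ k, x ∈ 𝔮 ^ k ↔ y ∈ 𝔮 ^ k) : cnt 𝔮 x = cnt 𝔮 y := by
  apply le_antisymm
  · rw [← mem_pow_iff_le_cnt 𝔮 h0 hy, ← h, mem_pow_iff_le_cnt 𝔮 h0 hx]
  · rw [← mem_pow_iff_le_cnt 𝔮 h0 hx, h, mem_pow_iff_le_cnt 𝔮 h0 hy]

/-- A nonzero ideal all of whose prime multiplicities are divisible by `n` is an `n`-th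
power. -/
theorem exists_eq_pow_of_forall_dvd_count {J : Ideal R} (hJ : J ≠ ⊥) (n : ℕ)
    (h : ∀ 𝔮 : Ideal R, 𝔮.IsPrime → 𝔮 ≠ ⊥ → n ∣ Multiset.count 𝔮 (normalizedFactors J)) :
    ∃ I : Ideal R, J = I ^ n := by
  have ha : Associates.mk J ≠ 0 := by
    rw [Ne, Associates.mk_eq_zero]
    exact hJ
  obtain ⟨b, hb⟩ := Associates.is_pow_of_dvd_count ha (k := n) (by
    intro q hq
    obtain ⟨𝔮, rfl⟩ := Associates.mk_surjective q
    rw [Associates.irreducible_mk] at hq
    have hprime : Prime 𝔮 := UniqueFactorizationMonoid.irreducible_iff_prime.mp hq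
    have h𝔮 : 𝔮.IsPrime := Ideal.isPrime_of_prime hprime
    have h0 : 𝔮 ≠ ⊥ := hprime.ne_zero
    rw [Ideal.count_associates_factors_eq hJ h𝔮 h0]
    exact h 𝔮 h𝔮 h0)
  obtain ⟨I, rfl⟩ := Associates.mk_surjective b
  refine ⟨I, ?_⟩
  rw [← Associates.mk_pow, Associates.mk_eq_mk_iff_associated, associated_iff_eq] at hb
  exact hb

end Dedekind

section Val

variable {R : Type*} [CommRing R] [IsDedekindDomain R] {L : Type*} [Field L] [Algebra R L]

/-- The valuation subring `A` of `L` lies above the ideal `𝔮` of `R`. -/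
structure LiesAbove (A : ValuationSubring L) (𝔮 : Ideal R) : Prop where
  mem : ∀ r : R, algebraMap R L r ∈ A
  nonunit_iff : ∀ r : R, algebraMap R L r ∈ A.nonunits ↔ r ∈ 𝔮

theorem LiesAbove.valuation_le_one {A : ValuationSubring L} {𝔮 : Ideal R} (hA : LiesAbove A 𝔮)
    (r : R) : A.valuation (algebraMap R L r) ≤ 1 :=
  (A.valuation_le_one_iff _).mpr (hA.mem r)

theorem LiesAbove.valuation_lt_one {A : ValuationSubring L} {𝔮 : Ideal R} (hA : LiesAbove A 𝔮)
    {r : R} (hr : r ∈ 𝔮) : A.valuation (algebraMap R L r) < 1 := by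
  have := (hA.nonunit_iff r).mpr hr
  rwa [ValuationSubring.mem_nonunits_iff] at this

theorem LiesAbove.valuation_eq_one {A : ValuationSubring L} {𝔮 : Ideal R} (hA : LiesAbove A 𝔮)
    {r : R} (hr : r ∉ 𝔮) : A.valuation (algebraMap R L r) = 1 := by
  refine le_antisymm (hA.valuation_le_one r) ?_
  by_contra hcon
  rw [not_le] at hcon
  exact hr ((hA.nonunit_iff r).mp (by rwa [ValuationSubring.mem_nonunits_iff]))

/-- Comparison of valuations at `A` forces comparison of `𝔮`-adic orders. -/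
theorem mem_pow_of_valuation_le {A : ValuationSubring L} {𝔮 : Ideal R} [𝔮.IsMaximal]
    (hA : LiesAbove A 𝔮) {x y : R} (hy : algebraMap R L y ≠ 0)
    (hxy : A.valuation (algebraMap R L x) ≤ A.valuation (algebraMap R L y)) {k : ℕ}
    (hk : y ∈ 𝔮 ^ k) : x ∈ 𝔮 ^ k := by
  by_contra hx
  obtain ⟨s, w, hs, hw, hsw⟩ := exists_mul_eq_mul_of_mem_pow 𝔮 hk hx
  have h1 := congrArg (fun t => A.valuation (algebraMap R L t)) hsw
  simp only [map_mul] at h1
  rw [hA.valuation_eq_one hs, one_mul] at h1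
  have h2 : A.valuation (algebraMap R L w) < 1 := hA.valuation_lt_one hw
  have hy0 : 0 < A.valuation (algebraMap R L y) := by
    rw [Valuation.pos_iff]
    exact hy
  have h3 : A.valuation (algebraMap R L w) * A.valuation (algebraMap R L x) <
      A.valuation (algebraMap R L y) := by
    calc A.valuation (algebraMap R L w) * A.valuation (algebraMap R L x)
        ≤ A.valuation (algebraMap R L w) * A.valuation (algebraMap R L y) :=
          mul_le_mul_right hxy _
      _ < 1 * A.valuation (algebraMap R L y) := by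
          exact mul_lt_mul_of_pos_right h2 hy0
      _ = _ := one_mul _
  rw [← h1] at h3
  exact lt_irrefl _ h3

theorem cnt_eq_of_valuation_eq {A : ValuationSubring L} {𝔮 : Ideal R} [h𝔮 : 𝔮.IsMaximal]
    (h0 : 𝔮 ≠ ⊥) (hinj : Function.Injective (algebraMap R L))
    (hA : LiesAbove A 𝔮) {x y : R} (hx : x ≠ 0) (hy : y ≠ 0)
    (hxy : A.valuation (algebraMap R L x) = A.valuation (algebraMap R L y)) :
    cnt 𝔮 x = cnt 𝔮 y := by
  have hx' : algebraMap R L x ≠ 0 := fun h => hx (hinj (by rw [h, map_zero]))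
  have hy' : algebraMap R L y ≠ 0 := fun h => hy (hinj (by rw [h, map_zero]))
  refine cnt_eq_of_forall_mem_iff 𝔮 h0 hx hy fun k => ⟨fun h => ?_, fun h => ?_⟩
  · exact mem_pow_of_valuation_le hA hx' hxy.ge h
  · exact mem_pow_of_valuation_le hA hy' hxy.le h

/-- To lie above a maximal ideal it suffices to contain `R` and to have `𝔮` among the
nonunits. -/
theorem liesAbove_of_subset {A : ValuationSubring L} {𝔮 : Ideal R} [h𝔮 : 𝔮.IsMaximal]
    (hmem : ∀ r : R, algebraMap R L r ∈ A)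
    (hsub : ∀ r ∈ 𝔮, algebraMap R L r ∈ A.nonunits) : LiesAbove A 𝔮 := by
  refine ⟨hmem, fun r => ⟨fun hr => ?_, fun hr => hsub r hr⟩⟩
  by_contra hcon
  obtain ⟨c, a, ha, hab⟩ := h𝔮.exists_inv hcon
  rw [add_comm] at hab
  have ha' : algebraMap R L a ∈ A.nonunits := hsub a ha
  have hcr : algebraMap R L (c * r) ∈ A.nonunits := by
    rw [map_mul]
    rw [ValuationSubring.mem_nonunits_iff] at hr ⊢
    rw [map_mul]
    calc A.valuation (algebraMap R L c) * A.valuation (algebraMap R L r)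
        ≤ 1 * A.valuation (algebraMap R L r) :=
          mul_le_mul_left ((A.valuation_le_one_iff _).mpr (hmem c)) _
      _ < 1 := by rwa [one_mul]
  have h1 : algebraMap R L (a + c * r) ∈ A.nonunits := by
    rw [map_add]
    exact A.nonunits.add_mem ha' hcr
  rw [hab, map_one, ValuationSubring.mem_nonunits_iff, map_one] at h1
  exact lt_irrefl _ h1

/-- Existence of a valuation subring above a maximal ideal. -/
theorem exists_liesAbove (hinj : Function.Injective (algebraMap R L)) (𝔮 : Ideal R)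
    [h𝔮 : 𝔮.IsMaximal] : ∃ A : ValuationSubring L, LiesAbove A 𝔮 := by
  let A₀ : Subring L := (algebraMap R L).range
  let f : R →+* A₀ := (algebraMap R L).rangeRestrict
  have hf : Function.Surjective f := (algebraMap R L).rangeRestrict_surjective
  have hfinj : Function.Injective f := by
    intro a b hab
    apply hinj
    exact congrArg Subtype.val hab
  have hI : 𝔮.map f ≠ ⊤ := by
    intro h
    have h1 : (1 : A₀) ∈ 𝔮.map f := by rw [h]; trivial
    rw [Ideal.mem_map_iff_of_surjective f hf] at h1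
    obtain ⟨r, hr, hr1⟩ := h1
    have : r = 1 := hfinj (by rw [hr1, map_one])
    rw [this] at hr
    exact h𝔮.ne_top ((Ideal.eq_top_iff_one _).mpr hr)
  obtain ⟨A, hA1, hA2⟩ := Ideal.image_subset_nonunits_valuationSubring _ hI
  exact ⟨A, liesAbove_of_subset (fun r => hA1 ⟨r, rfl⟩)
    (fun r hr => hA2 ⟨f r, Ideal.mem_map_of_mem f hr, rfl⟩)⟩

/-- Valuation subrings contain all algebraic integers. -/
theorem mem_valSubring_of_isIntegral {F : Type*} [Field F] (A : ValuationSubring F)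
    {b : F} (hb : IsIntegral ℤ b) : b ∈ A := by
  have h1 : IsIntegral A.toSubring b := by
    obtain ⟨q, hq, hqb⟩ := hb
    refine ⟨q.map (algebraMap ℤ A.toSubring), hq.map _, ?_⟩
    rw [Polynomial.eval₂_map]
    have : (algebraMap A.toSubring F).comp (algebraMap ℤ A.toSubring) = algebraMap ℤ F := by
      ext; simp
    rw [this]
    exact hqb
  have h2 := (IsIntegrallyClosed.isIntegral_iff (R := A) (K := F)).mp h1
  obtain ⟨y, hy⟩ := h2
  rw [← hy]
  exact y.2

/-- Divisibility by powers of a generator `π` of `𝔮` can be tested in `A`. -/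
theorem pow_dvd_of_eq_mul {A : ValuationSubring L} {π : R} [(Ideal.span {π}).IsMaximal]
    (hinj : Function.Injective (algebraMap R L)) (hπ : π ≠ 0)
    (hA : LiesAbove A (Ideal.span {π})) :
    ∀ (k : ℕ) (y : R) (t : L), t ∈ A → algebraMap R L y = algebraMap R L π ^ k * t →
      π ^ k ∣ y := by
  intro k
  induction k with
  | zero => intro y t _ _; simp
  | succ k ih =>
    intro y t ht hy
    have hπ' : algebraMap R L π ≠ 0 := fun h => hπ (hinj (by rw [h, map_zero]))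
    have h1 : algebraMap R L y ∈ A.nonunits := by
      rw [ValuationSubring.mem_nonunits_iff, hy, map_mul, map_pow, pow_succ]
      have hlt : A.valuation (algebraMap R L π) < 1 :=
        hA.valuation_lt_one (Ideal.mem_span_singleton_self π)
      have hle : A.valuation (algebraMap R L π) ≤ 1 := hlt.le
      have htle : A.valuation t ≤ 1 := (A.valuation_le_one_iff _).mpr ht
      calc A.valuation (algebraMap R L π) ^ k * A.valuation (algebraMap R L π) * A.valuation t
          ≤ 1 * A.valuation (algebraMap R L π) * 1 := by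
            gcongr
            exact pow_le_one₀ zero_le hle
        _ < 1 := by rwa [one_mul, mul_one]
    have h2 : y ∈ Ideal.span {π} := (hA.nonunit_iff y).mp h1
    rw [Ideal.mem_span_singleton] at h2
    obtain ⟨y', rfl⟩ := h2
    have h3 : algebraMap R L y' = algebraMap R L π ^ k * t := by
      rw [map_mul, pow_succ, mul_comm _ (algebraMap R L π), mul_assoc] at hy
      exact mul_left_cancel₀ hπ' hy
    obtain ⟨z, rfl⟩ := ih y' t ht h3
    exact ⟨z, by ring⟩

end Val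

end Fermat.Agent.S14.Red734
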