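import Mathlib
import Fermat.Agent.S14.Spec

/-!
# S14, block B1-integration (helper734): the Galois-side Kummer datum

`GalDatum p ζ β` packages what the Galois block (non-split admissible extension ⇒ Kummer
generator `β`) and the local blocks (inertia / decomposition groups ⇒ valuations) provide, as
statements about elements and valuation subrings of `ℚ̄`.  The theorem
`reduction_of_galDatum` (file `Main.lean`) turns it into `Spec.KummerDatum`.
-/

set_option autoImplicit false

namespace Fermat.Agent.S14.Red734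

/-- Kummer datum inside `ℚ̄`: `β ^ p ∈ K = ℚ(ζ)`, `β ∉ K`, `β` of type `ω²`, the valuation of
`β` at every valuation subring over a prime number lies in the value group of `K`, and `β` is
locally at `p` congruent to a rational integer. -/
structure GalDatum (p : ℕ) (ζ β : AlgebraicClosure ℚ) : Prop where
  prim : IsPrimitiveRoot ζ p
  pow_mem : β ^ p ∈ IntermediateField.adjoin ℚ {ζ}
  not_mem : β ∉ IntermediateField.adjoin ℚ {ζ}
  typeTwo : ∀ (σ : AlgebraicClosure ℚ ≃ₐ[ℚ] AlgebraicClosure ℚ) (a : ℕ), σ ζ = ζ ^ a →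
    ∃ y ∈ IntermediateField.adjoin ℚ {ζ}, σ β = β ^ (a ^ 2) * y
  val : ∀ ℓ : ℕ, ℓ.Prime → ∀ A : ValuationSubring (AlgebraicClosure ℚ), A.LiesOverPrime ℓ →
    ∃ c ∈ IntermediateField.adjoin ℚ {ζ}, c ≠ 0 ∧ A.valuation β = A.valuation c
  loc : ∀ A : ValuationSubring (AlgebraicClosure ℚ), A.LiesOverPrime p →
    ∀ γ ∈ IntermediateField.adjoin ℚ {ζ}, A.valuation (β * γ) = 1 →
      ∃ m : ℤ, ∃ t ∈ A, (β * γ) ^ p - (m : AlgebraicClosure ℚ) = (ζ - 1) ^ 3 * t

end Fermat.Agent.S14.Red734
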