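import Mathlib
import Fermat.Agent.S14.Spec
import Fermat.Agent.S14.Red734.Defs
import Fermat.Agent.S14.Red734.Dedekind

/-!
# S14 / Red734: the field `ℚ(ζ) ⊆ ℚ̄` as a cyclotomic number field
-/

set_option autoImplicit false
set_option linter.unusedSectionVars false
set_option linter.style.haveILetI false

open NumberField

namespace Fermat.Agent.S14.Red734

/-- The field `ℚ(ζ) ⊆ ℚ̄` as a type. -/
abbrev Kz (ζ : AlgebraicClosure ℚ) : Type := ↥(IntermediateField.adjoin ℚ {ζ})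

noncomputable instance instNumberFieldKz (ζ : AlgebraicClosure ℚ) : NumberField (Kz ζ) where
  to_charZero := inferInstance
  to_finiteDimensional :=
    IntermediateField.adjoin.finiteDimensional
      ((AlgebraicClosure.isAlgebraic ℚ).isAlgebraic ζ).isIntegral

variable {p : ℕ} [hp : Fact p.Prime]

theorem isCyclotomicExtension_Kz {ζ : AlgebraicClosure ℚ} (hζ : IsPrimitiveRoot ζ p) :
    IsCyclotomicExtension {p} ℚ (Kz ζ) :=
  haveI : NeZero p := ⟨hp.out.ne_zero⟩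
  haveI : Algebra.IsIntegral ℚ (AlgebraicClosure ℚ) := (AlgebraicClosure.isAlgebraic ℚ).isIntegral
  hζ.intermediateField_adjoin_isCyclotomicExtension ℚ

/-- `ζ` as an element of `ℚ(ζ)`. -/
def zK (ζ : AlgebraicClosure ℚ) : Kz ζ := ⟨ζ, IntermediateField.mem_adjoin_simple_self ℚ ζ⟩

@[simp] theorem coe_zK (ζ : AlgebraicClosure ℚ) : ((zK ζ : Kz ζ) : AlgebraicClosure ℚ) = ζ := rfl

theorem zK_prim {ζ : AlgebraicClosure ℚ} (hζ : IsPrimitiveRoot ζ p) : IsPrimitiveRoot (zK ζ) p :=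
  IsPrimitiveRoot.of_map_of_injective (f := algebraMap (Kz ζ) (AlgebraicClosure ℚ))
    (by simpa using hζ) (FaithfulSMul.algebraMap_injective _ _)

/-- The embedding of the ring of integers of `ℚ(ζ)` into `ℚ̄`. -/
noncomputable abbrev iota (ζ : AlgebraicClosure ℚ) : 𝓞 (Kz ζ) →+* AlgebraicClosure ℚ :=
  algebraMap (𝓞 (Kz ζ)) (AlgebraicClosure ℚ)

theorem iota_apply (ζ : AlgebraicClosure ℚ) (x : 𝓞 (Kz ζ)) :
    iota ζ x = ((x : Kz ζ) : AlgebraicClosure ℚ) := rfl

theorem iota_injective (ζ : AlgebraicClosure ℚ) : Function.Injective (iota ζ) :=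
  FaithfulSMul.algebraMap_injective _ _

/-- `λ = ζ - 1` in the ring of integers. -/
noncomputable def lamO {ζ : AlgebraicClosure ℚ} (hζ : IsPrimitiveRoot ζ p) : 𝓞 (Kz ζ) :=
  (zK_prim hζ).toInteger - 1

theorem iota_lamO {ζ : AlgebraicClosure ℚ} (hζ : IsPrimitiveRoot ζ p) :
    iota ζ (lamO hζ) = ζ - 1 := by
  rw [lamO, map_sub, map_one]
  rfl

theorem lamO_prime {ζ : AlgebraicClosure ℚ} (hζ : IsPrimitiveRoot ζ p) : Prime (lamO hζ) := by
  haveI := isCyclotomicExtension_Kz hζ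
  exact (zK_prim hζ).zeta_sub_one_prime'

theorem lamO_dvd_p {ζ : AlgebraicClosure ℚ} (hζ : IsPrimitiveRoot ζ p) :
    lamO hζ ∣ (p : 𝓞 (Kz ζ)) := by
  haveI := isCyclotomicExtension_Kz hζ
  exact (zK_prim hζ).toInteger_sub_one_dvd_prime'

theorem span_lamO_isMaximal {ζ : AlgebraicClosure ℚ} (hζ : IsPrimitiveRoot ζ p) :
    (Ideal.span {lamO hζ}).IsMaximal := by
  have hprime : (Ideal.span {lamO hζ}).IsPrime :=
    (Ideal.span_singleton_prime (lamO_prime hζ).ne_zero).mpr (lamO_prime hζ)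
  exact hprime.isMaximal (by simpa using (lamO_prime hζ).ne_zero)

theorem iota_mem (ζ : AlgebraicClosure ℚ) (A : ValuationSubring (AlgebraicClosure ℚ))
    (x : 𝓞 (Kz ζ)) : iota ζ x ∈ A := by
  apply mem_valSubring_of_isIntegral
  have h1 : IsIntegral ℤ (x : Kz ζ) := RingOfIntegers.isIntegral_coe x
  exact h1.algebraMap

/-- `(ζ - 1) ^ p ∈ p 𝓞`. -/
theorem p_dvd_lamO_pow {ζ : AlgebraicClosure ℚ} (hζ : IsPrimitiveRoot ζ p) (hp2 : p ≠ 2) :
    (p : 𝓞 (Kz ζ)) ∣ lamO hζ ^ p := by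
  obtain ⟨r, hr⟩ := exists_add_pow_prime_eq hp.out ((zK_prim hζ).toInteger) (-1)
  have hodd : Odd p := hp.out.odd_of_ne_two hp2
  have h1 : (zK_prim hζ).toInteger ^ p = 1 :=
    (zK_prim hζ).toInteger_isPrimitiveRoot.pow_eq_one
  rw [h1, hodd.neg_one_pow] at hr
  refine ⟨(zK_prim hζ).toInteger * (-1) * r, ?_⟩
  rw [lamO, sub_eq_add_neg, hr]
  ring

theorem liesAbove_lamO {ζ : AlgebraicClosure ℚ} (hζ : IsPrimitiveRoot ζ p) (hp2 : p ≠ 2)
    (A : ValuationSubring (AlgebraicClosure ℚ)) (hA : A.LiesOverPrime p) :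
    haveI := span_lamO_isMaximal hζ
    LiesAbove A (Ideal.span {lamO hζ}) := by
  haveI := span_lamO_isMaximal hζ
  have hlam : A.valuation (iota ζ (lamO hζ)) < 1 := by
    obtain ⟨r, hr⟩ := p_dvd_lamO_pow hζ hp2
    have h1 := congrArg (fun t => A.valuation (iota ζ t)) hr
    simp only [map_pow, map_mul, map_natCast] at h1
    have hpv : A.valuation (p : AlgebraicClosure ℚ) < 1 := by
      have := hA
      rwa [ValuationSubring.LiesOverPrime, ValuationSubring.mem_nonunits_iff] at this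
    have hr1 : A.valuation (iota ζ r) ≤ 1 := (A.valuation_le_one_iff _).mpr (iota_mem ζ A r)
    have h2 : A.valuation (iota ζ (lamO hζ)) ^ p < 1 := by
      rw [h1]
      calc A.valuation (p : AlgebraicClosure ℚ) * A.valuation (iota ζ r)
          ≤ A.valuation (p : AlgebraicClosure ℚ) * 1 := by gcongr
        _ < 1 := by rwa [mul_one]
    by_contra hcon
    rw [not_lt] at hcon
    exact absurd h2 (not_lt.mpr (one_le_pow₀ hcon))
  refine liesAbove_of_subset (fun r => iota_mem ζ A r) fun r hr => ?_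
  rw [Ideal.mem_span_singleton] at hr
  obtain ⟨c, rfl⟩ := hr
  rw [ValuationSubring.mem_nonunits_iff, map_mul, map_mul]
  calc A.valuation (iota ζ (lamO hζ)) * A.valuation (iota ζ c)
      ≤ A.valuation (iota ζ (lamO hζ)) * 1 := by
        gcongr
        exact (A.valuation_le_one_iff _).mpr (iota_mem ζ A c)
    _ < 1 := by rwa [mul_one]

/-- A valuation subring above a nonzero prime of `𝓞 K` lies over a prime number. -/
theorem exists_prime_liesOverPrime (ζ : AlgebraicClosure ℚ)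
    (A : ValuationSubring (AlgebraicClosure ℚ)) (𝔮 : Ideal (𝓞 (Kz ζ))) (h0 : 𝔮 ≠ ⊥)
    (hA : LiesAbove A 𝔮) : ∃ ℓ : ℕ, ℓ.Prime ∧ A.LiesOverPrime ℓ := by
  -- a nonzero natural number in `𝔮`
  have hn : ∃ n : ℕ, n ≠ 0 ∧ A.valuation (n : AlgebraicClosure ℚ) < 1 := by
    refine ⟨Ideal.absNorm 𝔮, ?_, ?_⟩
    · rw [Ne, Ideal.absNorm_eq_zero_iff]
      exact h0
    · have h1 : ((Ideal.absNorm 𝔮 : ℕ) : 𝓞 (Kz ζ)) ∈ 𝔮 := Ideal.absNorm_mem 𝔮
      have h2 := hA.valuation_lt_one h1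
      simpa using h2
  obtain ⟨n, hn0, hn1⟩ := hn
  have key : ∀ n : ℕ, n ≠ 0 → A.valuation (n : AlgebraicClosure ℚ) < 1 →
      ∃ ℓ : ℕ, ℓ.Prime ∧ A.LiesOverPrime ℓ := by
    intro n
    induction n using Nat.recOnMul with
    | zero => intro h; exact absurd rfl h
    | one => intro _ h; simp at h
    | prime ℓ hℓ =>
      intro _ h
      exact ⟨ℓ, hℓ, by rwa [ValuationSubring.LiesOverPrime, ValuationSubring.mem_nonunits_iff]⟩
    | mul a b iha ihb =>
      intro hab h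
      have ha0 : a ≠ 0 := fun h => hab (by rw [h, zero_mul])
      have hb0 : b ≠ 0 := fun h => hab (by rw [h, mul_zero])
      rw [Nat.cast_mul, map_mul] at h
      by_cases ha : A.valuation (a : AlgebraicClosure ℚ) < 1
      · exact iha ha0 ha
      · by_cases hb : A.valuation (b : AlgebraicClosure ℚ) < 1
        · exact ihb hb0 hb
        · exfalso
          rw [not_lt] at ha hb
          exact absurd h (not_lt.mpr (one_le_mul_of_one_le_of_one_le ha hb))
  exact key n hn0 hn1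

/-- The exponent `galExp` of the frozen interface describes the action on `ζ`. -/
theorem galExp_spec {ζ : AlgebraicClosure ℚ} (hζ : IsPrimitiveRoot ζ p) :
    haveI := isCyclotomicExtension_Kz hζ
    ∀ σ : Kz ζ ≃ₐ[ℚ] Kz ζ, σ (zK ζ) = zK ζ ^ Spec.galExp p (Kz ζ) σ := by
  haveI := isCyclotomicExtension_Kz hζ
  haveI : NeZero p := Spec.neZero p
  intro σ
  exact IsCyclotomicExtension.Rat.galEquivZMod_apply_of_pow_eq p (Kz ζ) σ (zK_prim hζ).pow_eq_one

/-- The `λ` of the frozen interface divides our `λ = ζ - 1`. -/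
theorem specLam_dvd_lamO {ζ : AlgebraicClosure ℚ} (hζ : IsPrimitiveRoot ζ p) :
    haveI := isCyclotomicExtension_Kz hζ
    Spec.lam p (Kz ζ) ∣ lamO hζ := by
  haveI := isCyclotomicExtension_Kz hζ
  haveI : NeZero p := Spec.neZero p
  have h1 : IsPrimitiveRoot (Spec.zetaInt p (Kz ζ)) p :=
    (IsCyclotomicExtension.zeta_spec p ℚ (Kz ζ)).toInteger_isPrimitiveRoot
  obtain ⟨i, -, hi⟩ := h1.eq_pow_of_pow_eq_one
    ((zK_prim hζ).toInteger_isPrimitiveRoot.pow_eq_one)
  rw [lamO, ← hi, Spec.lam]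
  exact sub_one_dvd_pow_sub_one _ i

end Fermat.Agent.S14.Red734
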