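import Mathlib
import Fermat.Agent.S14.Spec
import Fermat.Agent.S14.Red734.Defs
import Fermat.Agent.S14.Red734.Dedekind
import Fermat.Agent.S14.Red734.Cyclo

/-!
# S14 / Red734: from a Galois-side Kummer datum to `Spec.KummerDatum`
-/

set_option autoImplicit false
set_option linter.unusedSectionVars false
set_option linter.style.haveILetI false

open NumberField

namespace Fermat.Agent.S14.Red734

variable {p : ℕ} [hp : Fact p.Prime]

theorem GalDatum.beta_ne_zero {ζ β : AlgebraicClosure ℚ} (h : GalDatum p ζ β) : β ≠ 0 := by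
  rintro rfl
  exact h.not_mem (zero_mem _)

/-- `α'` represents `(β γ) ^ p` with `γ ∈ K`. -/
def Rep (ζ β : AlgebraicClosure ℚ) (p : ℕ) (α' : 𝓞 (Kz ζ)) (γ : Kz ζ) : Prop :=
  γ ≠ 0 ∧ iota ζ α' = (β * (γ : AlgebraicClosure ℚ)) ^ p

theorem Rep.ne_zero {ζ β : AlgebraicClosure ℚ} (h : GalDatum p ζ β) {α' : 𝓞 (Kz ζ)} {γ : Kz ζ}
    (hr : Rep ζ β p α' γ) : α' ≠ 0 := by
  rintro rfl
  have h1 := hr.2
  rw [map_zero] at h1
  have h2 : β * (γ : AlgebraicClosure ℚ) ≠ 0 :=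
    mul_ne_zero h.beta_ne_zero (by simpa using hr.1)
  exact pow_ne_zero p h2 h1.symm

/-- Step S2: an integral representative. -/
theorem exists_rep {ζ β : AlgebraicClosure ℚ} (h : GalDatum p ζ β) :
    ∃ (α₁ : 𝓞 (Kz ζ)) (γ₁ : Kz ζ), Rep ζ β p α₁ γ₁ := by
  obtain ⟨a, b, hb, hab⟩ := IsFractionRing.div_surjective (A := 𝓞 (Kz ζ))
    (⟨β ^ p, h.pow_mem⟩ : Kz ζ)
  have hb0 : (algebraMap (𝓞 (Kz ζ)) (Kz ζ) b) ≠ 0 := by
    intro h0
    exact nonZeroDivisors.ne_zero hb ((FaithfulSMul.algebraMap_injective _ _) (by rw [h0, map_zero]))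
  refine ⟨a * b ^ (p - 1), algebraMap (𝓞 (Kz ζ)) (Kz ζ) b, hb0, ?_⟩
  have hab' : (β ^ p : AlgebraicClosure ℚ) = iota ζ a / iota ζ b := by
    have := congrArg (fun t : Kz ζ => (t : AlgebraicClosure ℚ)) hab
    simp only at this
    rw [← this]
    rfl
  have hb0' : iota ζ b ≠ 0 := fun h0 => hb0 (by
    have : ((algebraMap (𝓞 (Kz ζ)) (Kz ζ) b : Kz ζ) : AlgebraicClosure ℚ) = 0 := h0
    exact_mod_cast this)
  have hp1 : p = (p - 1) + 1 := (Nat.succ_pred_eq_of_pos hp.out.pos).symm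
  rw [map_mul, map_pow, mul_pow, hab']
  show _ = _ * (iota ζ b) ^ p
  conv_rhs => rw [hp1, pow_succ]
  field_simp

/-- Step S3: all multiplicities of a representative are divisible by `p`. -/
theorem Rep.dvd_cnt {ζ β : AlgebraicClosure ℚ} (h : GalDatum p ζ β) {α' : 𝓞 (Kz ζ)} {γ : Kz ζ}
    (hr : Rep ζ β p α' γ) (𝔮 : Ideal (𝓞 (Kz ζ))) (h𝔮 : 𝔮.IsPrime) (h0 : 𝔮 ≠ ⊥) :
    p ∣ cnt 𝔮 α' := by
  haveI hmax : 𝔮.IsMaximal := h𝔮.isMaximal h0
  obtain ⟨A, hA⟩ := exists_liesAbove (L := AlgebraicClosure ℚ) (iota_injective ζ) 𝔮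
  obtain ⟨ℓ, hℓ, hAℓ⟩ := exists_prime_liesOverPrime ζ A 𝔮 h0 hA
  obtain ⟨c, hc, hc0, hvc⟩ := h.val ℓ hℓ A hAℓ
  -- write `c * γ = u / w`
  have hcγ : (⟨c, hc⟩ : Kz ζ) * γ ≠ 0 :=
    mul_ne_zero (fun h0 => hc0 (congrArg Subtype.val h0)) hr.1
  obtain ⟨u, w, hw, huw⟩ := IsFractionRing.div_surjective (A := 𝓞 (Kz ζ)) ((⟨c, hc⟩ : Kz ζ) * γ)
  have hw0 : w ≠ 0 := nonZeroDivisors.ne_zero hw
  have hu0 : u ≠ 0 := by
    rintro rfl
    rw [map_zero, zero_div] at huw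
    exact hcγ huw.symm
  have hwι : iota ζ w ≠ 0 := fun h0 => hw0 (iota_injective ζ (by rw [h0, map_zero]))
  have huw' : c * (γ : AlgebraicClosure ℚ) = iota ζ u / iota ζ w := by
    have := congrArg (fun t : Kz ζ => (t : AlgebraicClosure ℚ)) huw
    exact this.symm
  have hα0 : α' ≠ 0 := hr.ne_zero h
  -- valuations
  have hv : A.valuation (iota ζ (α' * w ^ p)) = A.valuation (iota ζ (u ^ p)) := by
    rw [map_mul, map_pow, map_pow, hr.2, map_mul, map_pow, map_pow, map_pow, map_mul, hvc,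
      ← map_mul, huw', map_div₀, div_pow,
      div_mul_cancel₀ _ (pow_ne_zero p ((Valuation.ne_zero_iff _).mpr hwι))]
  have hcnt := cnt_eq_of_valuation_eq h0 (iota_injective ζ) hA
    (mul_ne_zero hα0 (pow_ne_zero p hw0)) (pow_ne_zero p hu0) hv
  rw [cnt_mul 𝔮 hα0 (pow_ne_zero p hw0), cnt_pow, cnt_pow] at hcnt
  exact (Nat.dvd_add_left (dvd_mul_right p _)).mp ⟨cnt 𝔮 u, hcnt⟩

theorem span_lamO_ne_bot {ζ : AlgebraicClosure ℚ} (hζ : IsPrimitiveRoot ζ p) :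
    Ideal.span {lamO hζ} ≠ ⊥ := by
  simpa using (lamO_prime hζ).ne_zero

theorem iota_lamO_ne_zero {ζ : AlgebraicClosure ℚ} (hζ : IsPrimitiveRoot ζ p) :
    iota ζ (lamO hζ) ≠ 0 := fun h0 =>
  (lamO_prime hζ).ne_zero (iota_injective ζ (by rw [h0, map_zero]))

/-- Step S4: a representative prime to `λ`. -/
theorem exists_rep_not_dvd {ζ β : AlgebraicClosure ℚ} (h : GalDatum p ζ β) :
    ∃ (α₂ : 𝓞 (Kz ζ)) (γ₂ : Kz ζ), Rep ζ β p α₂ γ₂ ∧ ¬ lamO h.prim ∣ α₂ := by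
  obtain ⟨α₁, γ₁, hr⟩ := exists_rep h
  have hmax := span_lamO_isMaximal h.prim
  have hprime : (Ideal.span {lamO h.prim}).IsPrime := hmax.isPrime
  have h0 := span_lamO_ne_bot h.prim
  obtain ⟨k, hk⟩ := hr.dvd_cnt h _ hprime h0
  have hα₁ : α₁ ≠ 0 := hr.ne_zero h
  have hmem : α₁ ∈ Ideal.span {lamO h.prim} ^ (p * k) :=
    (mem_pow_iff_le_cnt _ h0 hα₁ _).mpr hk.ge
  rw [Ideal.span_singleton_pow, Ideal.mem_span_singleton] at hmem
  obtain ⟨α₂, hα₂⟩ := hmem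
  have hlamK : (algebraMap (𝓞 (Kz ζ)) (Kz ζ) (lamO h.prim)) ≠ 0 := fun h0' =>
    (lamO_prime h.prim).ne_zero ((FaithfulSMul.algebraMap_injective _ _) (by rw [h0', map_zero]))
  refine ⟨α₂, γ₁ / (algebraMap (𝓞 (Kz ζ)) (Kz ζ) (lamO h.prim)) ^ k,
    ⟨div_ne_zero hr.1 (pow_ne_zero k hlamK), ?_⟩, ?_⟩
  · have h1 := hr.2
    rw [hα₂, map_mul, map_pow] at h1
    have h2 : (((γ₁ / (algebraMap (𝓞 (Kz ζ)) (Kz ζ) (lamO h.prim)) ^ k : Kz ζ)) :
        AlgebraicClosure ℚ) = (γ₁ : AlgebraicClosure ℚ) / iota ζ (lamO h.prim) ^ k := by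
      push_cast
      rfl
    rw [h2, mul_div_assoc', div_pow, ← h1, ← pow_mul, mul_comm k p,
      mul_div_cancel_left₀ _ (pow_ne_zero _ (iota_lamO_ne_zero h.prim))]
  · rintro ⟨z, rfl⟩
    have hmem' : α₁ ∈ Ideal.span {lamO h.prim} ^ (p * k + 1) := by
      rw [Ideal.span_singleton_pow, Ideal.mem_span_singleton, hα₂]
      exact ⟨z, by ring⟩
    have := (mem_pow_iff_le_cnt _ h0 hα₁ _).mp hmem'
    omega

/-- Step S5: the principal ideal of a representative is a `p`-th power. -/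
theorem Rep.exists_ideal {ζ β : AlgebraicClosure ℚ} (h : GalDatum p ζ β) {α' : 𝓞 (Kz ζ)}
    {γ : Kz ζ} (hr : Rep ζ β p α' γ) : ∃ I : Ideal (𝓞 (Kz ζ)), Ideal.span {α'} = I ^ p := by
  have hα0 : α' ≠ 0 := hr.ne_zero h
  exact exists_eq_pow_of_forall_dvd_count (by simpa using hα0) p
    (fun 𝔮 h𝔮 h0 => hr.dvd_cnt h 𝔮 h𝔮 h0)

theorem iota_natCast (ζ : AlgebraicClosure ℚ) (n : ℕ) :
    iota ζ (n : 𝓞 (Kz ζ)) = (n : AlgebraicClosure ℚ) := map_natCast _ n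

theorem iota_intCast (ζ : AlgebraicClosure ℚ) (n : ℤ) :
    iota ζ (n : 𝓞 (Kz ζ)) = (n : AlgebraicClosure ℚ) := map_intCast _ n

/-- Step S6: a representative prime to `λ` is congruent to a rational integer mod `λ ^ 3`. -/
theorem Rep.exists_loc {ζ β : AlgebraicClosure ℚ} (h : GalDatum p ζ β)
    {α₂ : 𝓞 (Kz ζ)} {γ₂ : Kz ζ} (hr : Rep ζ β p α₂ γ₂) (hnd : ¬ lamO h.prim ∣ α₂) :
    ∃ a₀ : ℤ, ¬ (p : ℤ) ∣ a₀ ∧ lamO h.prim ^ 3 ∣ α₂ - (a₀ : 𝓞 (Kz ζ)) := by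
  haveI hmax := span_lamO_isMaximal h.prim
  obtain ⟨A, hA⟩ := exists_liesAbove (L := AlgebraicClosure ℚ) (iota_injective ζ)
    (Ideal.span {lamO h.prim})
  have hAp : A.LiesOverPrime p := by
    rw [ValuationSubring.LiesOverPrime, ← iota_natCast ζ p]
    exact (hA.nonunit_iff _).mpr (Ideal.mem_span_singleton.mpr (lamO_dvd_p h.prim))
  have hv1 : A.valuation (iota ζ α₂) = 1 :=
    hA.valuation_eq_one (fun hmem => hnd (Ideal.mem_span_singleton.mp hmem))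
  have hv : A.valuation (β * (γ₂ : AlgebraicClosure ℚ)) = 1 := by
    rw [hr.2, map_pow] at hv1
    exact (pow_eq_one_iff_of_nonneg zero_le hp.out.ne_zero).mp hv1
  obtain ⟨m, t, ht, hmt⟩ := h.loc A hAp γ₂ γ₂.2 hv
  refine ⟨m, ?_, ?_⟩
  · rintro ⟨m', rfl⟩
    apply hnd
    have h1 : lamO h.prim ∣ ((p * m' : ℤ) : 𝓞 (Kz ζ)) := by
      push_cast
      exact Dvd.dvd.mul_right (lamO_dvd_p h.prim) _
    have h2 : lamO h.prim ∣ α₂ - ((p * m' : ℤ) : 𝓞 (Kz ζ)) := by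
      have hlam : (Ideal.span {lamO h.prim}).IsMaximal := hmax
      have := pow_dvd_of_eq_mul (L := AlgebraicClosure ℚ) (iota_injective ζ)
        (lamO_prime h.prim).ne_zero hA 3 (α₂ - ((p * m' : ℤ) : 𝓞 (Kz ζ))) t ht (by
          rw [map_sub, iota_intCast, hr.2, hmt, iota_lamO])
      exact Dvd.dvd.trans (dvd_pow_self _ (by norm_num)) this
    have := dvd_add h2 h1
    rwa [sub_add_cancel] at this
  · exact pow_dvd_of_eq_mul (L := AlgebraicClosure ℚ) (iota_injective ζ)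
      (lamO_prime h.prim).ne_zero hA 3 (α₂ - (m : 𝓞 (Kz ζ))) t ht (by
        rw [map_sub, iota_intCast, hr.2, hmt, iota_lamO])

theorem normal_algebraicClosure_rat : Normal ℚ (AlgebraicClosure ℚ) := by
  haveI : Algebra.IsAlgebraic ℚ (AlgebraicClosure ℚ) := AlgebraicClosure.isAlgebraic ℚ
  haveI : IsAlgClosure ℚ (AlgebraicClosure ℚ) := ⟨inferInstance, inferInstance⟩
  exact IsAlgClosure.normal ℚ (AlgebraicClosure ℚ)

/-- Step S7: a representative has type `ω²`. -/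
theorem Rep.typeTwo {ζ β : AlgebraicClosure ℚ} (h : GalDatum p ζ β) {α' : 𝓞 (Kz ζ)}
    {γ : Kz ζ} (hr : Rep ζ β p α' γ) :
    haveI := isCyclotomicExtension_Kz h.prim
    Spec.IsTypeTwo p (Kz ζ) (α' : Kz ζ) := by
  haveI := isCyclotomicExtension_Kz h.prim
  haveI := normal_algebraicClosure_rat
  intro σ
  set a := Spec.galExp p (Kz ζ) σ with ha
  have hlift : ∀ x : Kz ζ, (σ.liftNormal (AlgebraicClosure ℚ)) (x : AlgebraicClosure ℚ) =
      ((σ x : Kz ζ) : AlgebraicClosure ℚ) := fun x =>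
    AlgEquiv.liftNormal_commutes σ (AlgebraicClosure ℚ) x
  have hζ : (σ.liftNormal (AlgebraicClosure ℚ)) ζ = ζ ^ a := by
    have h1 := hlift (zK ζ)
    rw [galExp_spec h.prim σ] at h1
    simpa using h1
  obtain ⟨y₀, hy₀, hβ⟩ := h.typeTwo _ a hζ
  have hγ : (γ : AlgebraicClosure ℚ) ≠ 0 := by simpa using hr.1
  refine ⟨⟨y₀, hy₀⟩ * σ γ / γ ^ (a ^ 2), ?_⟩
  apply Subtype.val_injective
  have h1 : ((σ (α' : Kz ζ) : Kz ζ) : AlgebraicClosure ℚ) =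
      (β ^ (a ^ 2) * y₀ * ((σ γ : Kz ζ) : AlgebraicClosure ℚ)) ^ p := by
    rw [← hlift]
    have : (((α' : Kz ζ)) : AlgebraicClosure ℚ) = (β * (γ : AlgebraicClosure ℚ)) ^ p := hr.2
    rw [this, map_pow, map_mul, hβ, hlift]
  show ((σ (α' : Kz ζ) : Kz ζ) : AlgebraicClosure ℚ) = _
  rw [h1]
  have h2 : (((α' : Kz ζ) ^ (a ^ 2) * (⟨y₀, hy₀⟩ * σ γ / γ ^ (a ^ 2)) ^ p : Kz ζ) :
      AlgebraicClosure ℚ) = ((β * (γ : AlgebraicClosure ℚ)) ^ p) ^ (a ^ 2) *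
        (y₀ * ((σ γ : Kz ζ) : AlgebraicClosure ℚ) / (γ : AlgebraicClosure ℚ) ^ (a ^ 2)) ^ p := by
    have : (((α' : Kz ζ)) : AlgebraicClosure ℚ) = (β * (γ : AlgebraicClosure ℚ)) ^ p := hr.2
    push_cast
    rw [this]
  show _ = (((α' : Kz ζ) ^ (a ^ 2) * (⟨y₀, hy₀⟩ * σ γ / γ ^ (a ^ 2)) ^ p : Kz ζ) :
      AlgebraicClosure ℚ)
  rw [h2]
  have key : (β * (γ : AlgebraicClosure ℚ)) ^ (a ^ 2) *
      (y₀ * ((σ γ : Kz ζ) : AlgebraicClosure ℚ) / (γ : AlgebraicClosure ℚ) ^ (a ^ 2)) =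
      β ^ (a ^ 2) * y₀ * ((σ γ : Kz ζ) : AlgebraicClosure ℚ) := by
    rw [mul_pow]
    field_simp
  rw [← pow_mul, mul_comm p, pow_mul, ← mul_pow, key]

/-- Step S8: a representative is not a `p`-th power in `K`. -/
theorem Rep.not_pow {ζ β : AlgebraicClosure ℚ} (h : GalDatum p ζ β) {α' : 𝓞 (Kz ζ)}
    {γ : Kz ζ} (hr : Rep ζ β p α' γ) : ¬ ∃ δ : Kz ζ, (α' : Kz ζ) = δ ^ p := by
  rintro ⟨δ, hδ⟩
  have hα0 : α' ≠ 0 := hr.ne_zero h
  have hδ0 : δ ≠ 0 := by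
    rintro rfl
    rw [zero_pow hp.out.ne_zero] at hδ
    exact hα0 (by exact_mod_cast hδ)
  have hγ : (γ : AlgebraicClosure ℚ) ≠ 0 := by simpa using hr.1
  have hδ' : (δ : AlgebraicClosure ℚ) ≠ 0 := by simpa using hδ0
  have h1 : (β * (γ : AlgebraicClosure ℚ)) ^ p = (δ : AlgebraicClosure ℚ) ^ p := by
    rw [← hr.2, iota_apply, hδ]
    rfl
  have h2 : (β * (γ : AlgebraicClosure ℚ) / (δ : AlgebraicClosure ℚ)) ^ p = 1 := by
    rw [div_pow, h1, div_self (pow_ne_zero p hδ')]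
  haveI : NeZero p := ⟨hp.out.ne_zero⟩
  obtain ⟨i, -, hi⟩ := h.prim.eq_pow_of_pow_eq_one h2
  apply h.not_mem
  have h3 : β = ζ ^ i * (δ : AlgebraicClosure ℚ) / (γ : AlgebraicClosure ℚ) := by
    rw [hi]
    field_simp
  rw [h3]
  exact div_mem (mul_mem (pow_mem (IntermediateField.mem_adjoin_simple_self ℚ ζ) i) δ.2) γ.2

/-- **B1-integration.**  A Galois-side Kummer datum yields a `Spec.KummerDatum` which is not a
`p`-th power. -/
theorem reduction_of_galDatum {ζ β : AlgebraicClosure ℚ} (h : GalDatum p ζ β) :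
    ∃ (K : Type) (_ : Field K) (_ : NumberField K) (_ : IsCyclotomicExtension {p} ℚ K)
      (α : 𝓞 K), Spec.KummerDatum p K α ∧ ¬ ∃ β : K, (α : K) = β ^ p := by
  obtain ⟨α₂, γ₂, hr, hnd⟩ := exists_rep_not_dvd h
  haveI := isCyclotomicExtension_Kz h.prim
  refine ⟨Kz ζ, inferInstance, inferInstance, isCyclotomicExtension_Kz h.prim, α₂,
    ⟨hr.ne_zero h, hr.typeTwo h, hr.exists_ideal h, ?_⟩, hr.not_pow h⟩
  obtain ⟨a₀, ha₀, hdvd⟩ := hr.exists_loc h hnd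
  refine ⟨a₀, ha₀, ?_⟩
  rw [Ideal.mem_span_singleton]
  exact (pow_dvd_pow_of_dvd (specLam_dvd_lamO h.prim) 3).trans hdvd

/-- `Spec.ReductionStatement` from the existence of Galois-side Kummer data. -/
theorem reductionStatement_of_galDatum
    (hG : ∀ (p : ℕ) [Fact p.Prime], 3 ≤ p →
      ∀ (V : Type) [AddCommGroup V] [Module (ZMod p) V]
        [DistribMulAction (AlgebraicClosure ℚ ≃ₐ[ℚ] AlgebraicClosure ℚ) V]
        [SMulCommClass (AlgebraicClosure ℚ ≃ₐ[ℚ] AlgebraicClosure ℚ) (ZMod p) V]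
        (C : Submodule (ZMod p) V),
        ExtCitation.IsAdmissibleExtensionCts p V C → ¬ ExtCitation.SplitsGlobally C →
        ∃ ζ β : AlgebraicClosure ℚ, GalDatum p ζ β) :
    Spec.ReductionStatement := by
  intro p _ h3 V _ _ _ _ C hadm hns
  obtain ⟨ζ, β, h⟩ := hG p h3 V C hadm hns
  exact reduction_of_galDatum h

end Fermat.Agent.S14.Red734
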