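import Mathlib
import Fermat.Agent.S14.Spec
import Fermat.Agent.S14.H714.Galois
import Fermat.Agent.S14.Red734.Main

/-!
# S14 / Red734: B1-ASM — `Spec.ReductionStatement` from GALOIS + LOCAL-I + LOCAL-D

The three inputs are stated in the (unfolded) shapes `GaloisInput`, `LocalIInput`, `LocalDInput`
of `origin/helper554:Fermat/Agent/S14/H554/Interface.lean`; the GALOIS input is already proved
(`H714.galois_input`, on main), so the final theorem only takes LOCAL-I and LOCAL-D.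
-/

set_option autoImplicit false
set_option linter.unusedSectionVars false
set_option linter.style.haveILetI false

open IntermediateField ExtCitation

namespace Fermat.Agent.S14.Red734

open H714

variable {p : ℕ} [hp : Fact p.Prime]
variable {V : Type} [AddCommGroup V] [Module (ZMod p) V]
  [DistribMulAction (AlgebraicClosure ℚ ≃ₐ[ℚ] AlgebraicClosure ℚ) V]
  [SMulCommClass (AlgebraicClosure ℚ ≃ₐ[ℚ] AlgebraicClosure ℚ) (ZMod p) V]
  {C : Submodule (ZMod p) V}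

/-- An element of the decomposition group at `p` fixing `ζ` acts trivially on `V`. -/
theorem trivial_of_mem_decomposition (hadm : IsAdmissibleExtension p V C)
    {ζ : AlgebraicClosure ℚ} (hζ : IsPrimitiveRoot ζ p)
    (A : ValuationSubring (AlgebraicClosure ℚ)) (hA : A.LiesOverPrime p)
    {σ : AlgebraicClosure ℚ ≃ₐ[ℚ] AlgebraicClosure ℚ} (hσ : σ ∈ A.decompositionSubgroup ℚ)
    (hσζ : σ ζ = ζ) (x : V) : σ • x = x := by
  obtain ⟨C', hC', hcompl⟩ := hadm.locally_split A hA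
  have hω : omega p σ = 1 := (omega_eq_one_iff p σ hζ).mpr hσζ
  have hx : x ∈ C ⊔ C' := by rw [hcompl.sup_eq_top]; trivial
  obtain ⟨c, hc, c', hc', rfl⟩ := Submodule.mem_sup.mp hx
  have h1 : σ • c = c := hadm.fixed_sub σ c hc
  have h2 : σ • c' - c' ∈ C := smul_sub_mem_of_omega_eq_one hadm hω c'
  have h3 : σ • c' - c' ∈ C' := C'.sub_mem (hC' σ hσ c' hc') hc'
  have h4 : σ • c' - c' ∈ C ⊓ C' := ⟨h2, h3⟩
  rw [hcompl.inf_eq_bot, Submodule.mem_bot, sub_eq_zero] at h4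
  rw [smul_add, h1, h4]

theorem mem_decomposition_of_mem_inertia (A : ValuationSubring (AlgebraicClosure ℚ))
    {σ : AlgebraicClosure ℚ ≃ₐ[ℚ] AlgebraicClosure ℚ} (hσ : σ ∈ A.inertiaSubgroupIn ℚ) :
    σ ∈ A.decompositionSubgroup ℚ := by
  rw [ValuationSubring.inertiaSubgroupIn, Subgroup.mem_map] at hσ
  obtain ⟨τ, -, rfl⟩ := hσ
  exact τ.2

/-- The Galois-side datum from the three inputs. -/
theorem galDatum_of_inputs (hadm : IsAdmissibleExtensionCts p V C)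
    {ζ β : AlgebraicClosure ℚ} (hζ : IsPrimitiveRoot ζ p)
    (hβp : β ^ p ∈ ℚ⟮ζ⟯) (hβ : β ∉ ℚ⟮ζ⟯)
    (hG1 : ∀ σ : AlgebraicClosure ℚ ≃ₐ[ℚ] AlgebraicClosure ℚ, (∀ v : V, σ • v = v) → σ β = β)
    (hG2 : ∀ σ : AlgebraicClosure ℚ ≃ₐ[ℚ] AlgebraicClosure ℚ,
        ∃ y ∈ ℚ⟮ζ⟯, σ β = β ^ (ExtCitation.cycloExp p σ ^ 2) * y)
    (hI : ∀ (A : ValuationSubring (AlgebraicClosure ℚ)) (b : AlgebraicClosure ℚ),
      b ≠ 0 → b ^ p ∈ ℚ⟮ζ⟯ →
      (∀ σ ∈ A.inertiaSubgroupIn ℚ, σ ζ = ζ → σ b = b) →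
      ∃ c ∈ ℚ⟮ζ⟯, c ≠ 0 ∧ A.valuation b = A.valuation c)
    (hD : ∀ (A : ValuationSubring (AlgebraicClosure ℚ)), A.LiesOverPrime p →
      ∀ (b : AlgebraicClosure ℚ), b ^ p ∈ ℚ⟮ζ⟯ → A.valuation b = 1 →
      (∀ σ ∈ A.decompositionSubgroup ℚ, σ ζ = ζ → σ b = b) →
      ∃ m : ℤ, A.valuation (b ^ p - (m : AlgebraicClosure ℚ)) ≤ A.valuation ((ζ - 1) ^ 3)) :
    GalDatum p ζ β := by
  have hβ0 : β ≠ 0 := by
    rintro rfl
    exact hβ (zero_mem _)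
  refine ⟨hζ, hβp, hβ, ?_, ?_, ?_⟩
  · -- typeTwo
    intro σ a ha
    obtain ⟨y, hy, hσβ⟩ := hG2 σ
    set e := ExtCitation.cycloExp p σ with he
    have hae : (a : ZMod p) = (e : ZMod p) := by
      rw [← pow_eq_pow_iff_of_isPrimitiveRoot p hζ, ← ha, cycloExp_spec p σ hζ.pow_eq_one]
    have hsq : ((a ^ 2 : ℕ) : ZMod p) = ((e ^ 2 : ℕ) : ZMod p) := by
      push_cast
      rw [hae]
    have hdvd : (p : ℤ) ∣ (e ^ 2 : ℕ) - (a ^ 2 : ℕ) := by
      rw [← ZMod.intCast_zmod_eq_zero_iff_dvd]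
      push_cast
      have := hsq
      push_cast at this
      rw [this, sub_self]
    obtain ⟨k, hk⟩ := hdvd
    refine ⟨(β ^ p) ^ k * y, mul_mem (zpow_mem hβp k) hy, ?_⟩
    rw [hσβ, ← mul_assoc]
    congr 1
    have h1 : ((e ^ 2 : ℕ) : ℤ) = (a ^ 2 : ℕ) + p * k := by linarith
    rw [← zpow_natCast β (e ^ 2), h1, zpow_add₀ hβ0, zpow_natCast, zpow_mul, zpow_natCast]
  · -- val
    intro ℓ hℓ A hA
    refine hI A β hβ0 hβp fun σ hσ hσζ => hG1 σ ?_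
    by_cases hℓp : ℓ = p
    · subst hℓp
      exact trivial_of_mem_decomposition hadm.toIsAdmissibleExtension hζ A hA
        (mem_decomposition_of_mem_inertia A hσ) hσζ
    · exact hadm.unramified_outside ℓ hℓ hℓp A hA σ hσ
  · -- loc
    intro A hA γ hγ hv
    have hfix : ∀ σ ∈ A.decompositionSubgroup ℚ, σ ζ = ζ → σ (β * γ) = β * γ := by
      intro σ hσ hσζ
      rw [map_mul, hG1 σ (trivial_of_mem_decomposition hadm.toIsAdmissibleExtension hζ A hA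
        hσ hσζ), (mem_adjoin_iff_fixed γ).mp hγ σ hσζ]
    have hpow : (β * γ) ^ p ∈ ℚ⟮ζ⟯ := by
      rw [mul_pow]
      exact mul_mem hβp (pow_mem hγ p)
    obtain ⟨m, hm⟩ := hD A hA (β * γ) hpow hv hfix
    have hz : (ζ - 1) ^ 3 ≠ 0 := by
      apply pow_ne_zero
      rw [sub_ne_zero]
      exact hζ.ne_one hp.out.one_lt
    refine ⟨m, ((β * γ) ^ p - (m : AlgebraicClosure ℚ)) / (ζ - 1) ^ 3, ?_, ?_⟩
    · rw [← ValuationSubring.valuation_le_one_iff, map_div₀]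
      exact div_le_one_of_le₀ hm zero_le
    · rw [mul_div_cancel₀ _ hz]

/-- **B1-ASM.**  `Spec.ReductionStatement` from LOCAL-I and LOCAL-D (GALOIS is `H714`). -/
theorem reductionStatement_of_local
    (hI : ∀ (p : ℕ) [Fact p.Prime], 3 ≤ p → ∀ ζ : AlgebraicClosure ℚ, IsPrimitiveRoot ζ p →
      ∀ (A : ValuationSubring (AlgebraicClosure ℚ)) (b : AlgebraicClosure ℚ),
        b ≠ 0 → b ^ p ∈ ℚ⟮ζ⟯ →
        (∀ σ ∈ A.inertiaSubgroupIn ℚ, σ ζ = ζ → σ b = b) →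
        ∃ c ∈ ℚ⟮ζ⟯, c ≠ 0 ∧ A.valuation b = A.valuation c)
    (hD : ∀ (p : ℕ) [Fact p.Prime], 3 ≤ p → ∀ ζ : AlgebraicClosure ℚ, IsPrimitiveRoot ζ p →
      ∀ (A : ValuationSubring (AlgebraicClosure ℚ)), A.LiesOverPrime p →
      ∀ (b : AlgebraicClosure ℚ), b ^ p ∈ ℚ⟮ζ⟯ → A.valuation b = 1 →
        (∀ σ ∈ A.decompositionSubgroup ℚ, σ ζ = ζ → σ b = b) →
        ∃ m : ℤ, A.valuation (b ^ p - (m : AlgebraicClosure ℚ)) ≤ A.valuation ((ζ - 1) ^ 3)) :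
    Spec.ReductionStatement := by
  intro p _ h3 V _ _ _ _ C hadm hns
  haveI : NeZero p := ⟨(Fact.out : p.Prime).ne_zero⟩
  obtain ⟨ζ, hζ⟩ := HasEnoughRootsOfUnity.exists_primitiveRoot (AlgebraicClosure ℚ) p
  obtain ⟨β, hβp, hβ, hG1, hG2⟩ := galois_input h3 hζ V C hadm hns
  exact reduction_of_galDatum
    (galDatum_of_inputs hadm hζ hβp hβ hG1 hG2 (hI p h3 ζ hζ) (hD p h3 ζ hζ))

end Fermat.Agent.S14.Red734
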